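/-
Project F (S28, Igusa), slice (III-STEP), part 1 (helper29): orders of Laurent series and the
linear independence of the powers of `J = q⁻¹ + ⋯` over subfields of `k((q^p))`.
-/
import Mathlib
import Fermat.Prelude.Def_ModularCurve_X0ModL
import Fermat.Agent.S28.LaurentRescale

set_option autoImplicit false

noncomputable section

namespace Fermat.Agent.S28.StepDeg

open HahnSeries ModularCurve Fermat.Agent.S28.LaurentRescale

variable {k : Type*} [Field k]

/-! ### Orders -/

/-- A finite sum of nonzero Laurent series with pairwise distinct orders is nonzero. -/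
theorem sum_ne_zero_of_injOn_order {ι : Type*} (s : Finset ι) (f : ι → LaurentSeries k)
    (hne : s.Nonempty) (hf : ∀ i ∈ s, f i ≠ 0)
    (hinj : Set.InjOn (fun i => (f i).order) (s : Set ι)) : ∑ i ∈ s, f i ≠ 0 := by
  classical
  obtain ⟨i₀, hi₀, hmin⟩ := s.exists_min_image (fun i => (f i).order) hne
  intro h0
  have hc : (∑ i ∈ s, f i).coeff (f i₀).order = 0 := by rw [h0]; rfl
  have hsum : (∑ i ∈ s, f i).coeff (f i₀).order = ∑ i ∈ s, (f i).coeff (f i₀).order := by
    simp
  rw [hsum, Finset.sum_eq_single_of_mem i₀ hi₀] at hc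
  · exact hf i₀ hi₀ (coeff_order_eq_zero.mp hc)
  · intro j hj hji
    refine coeff_eq_zero_of_lt_order (lt_of_le_of_ne (hmin j hj) ?_)
    intro heq
    exact hji (hinj hj hi₀ heq.symm)

theorem order_qExpand (m : ℕ) [NeZero m] (f : LaurentSeries k) :
    (qExpand k m f).order = (m : ℤ) * f.order := by
  by_cases hf : f = 0
  · subst hf; simp
  have hf' : qExpand k m f ≠ 0 := fun h => hf (qExpand_injective m (by rw [h, map_zero]))
  have hm : (0 : ℤ) < m := by exact_mod_cast Nat.pos_of_ne_zero (NeZero.ne m)
  apply le_antisymm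
  · refine order_le_of_coeff_ne_zero ?_
    rw [qExpand_coeff_mul]
    exact coeff_order_eq_zero.not.mpr hf
  · rw [le_order_iff_forall hf']
    intro j hj
    by_cases hd : (m : ℤ) ∣ j
    · obtain ⟨c, rfl⟩ := hd
      rw [qExpand_coeff_mul]
      exact coeff_eq_zero_of_lt_order (lt_of_mul_lt_mul_left hj hm.le)
    · exact qExpand_coeff_of_not_dvd m f hd

theorem dvd_order_of_mem_range_qExpand (m : ℕ) [NeZero m] {f : LaurentSeries k}
    (hf : f ∈ Set.range (qExpand k m)) : (m : ℤ) ∣ f.order := by
  obtain ⟨g, rfl⟩ := hf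
  rw [order_qExpand]
  exact dvd_mul_right _ _

/-! ### The series `J` -/

theorem jqModC_ne_zero : jqModC k ≠ 0 := jqModC_ne_zero_of_nontrivial k

theorem order_jqModC : (jqModC k).order = -1 := by
  apply le_antisymm
  · exact order_le_of_coeff_ne_zero (by rw [coeff_jqModC_neg_one k]; exact one_ne_zero)
  · rw [le_order_iff_forall jqModC_ne_zero]
    intro j hj
    exact coeff_jqModC_of_lt k hj

theorem order_rescaleU_jqModC (u : kˣ) : (rescaleU u (jqModC k)).order = -1 := by
  rw [order_rescaleU, order_jqModC]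

theorem order_jqModC_pow (i : ℕ) : ((jqModC k) ^ i).order = -(i : ℤ) := by
  rw [order_pow, order_jqModC]; simp

end Fermat.Agent.S28.StepDeg
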