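/-
Project F (S28, Igusa), slice (III-STEP), part 2 (helper29): the prime-level input structure
`PrimeLevel` and the degree of `J` over subfields of `k((q^p))`.
-/
import Fermat.Agent.S28.Step.Orders

set_option autoImplicit false

noncomputable section

namespace Fermat.Agent.S28.StepDeg

open HahnSeries ModularCurve Fermat.Agent.S28.LaurentRescale Polynomial

variable {k : Type*} [Field k]

/-- Evaluation of the inner variable of a bivariate polynomial at a Laurent series. -/
def evalInner (y : LaurentSeries k) : Polynomial k →+* LaurentSeries k :=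
  ((Polynomial.aeval y : Polynomial k →ₐ[k] LaurentSeries k) : Polynomial k →+* LaurentSeries k)

@[simp] theorem evalInner_C (y : LaurentSeries k) (c : k) :
    evalInner y (Polynomial.C c) = algebraMap k (LaurentSeries k) c := by
  simp [evalInner]

@[simp] theorem evalInner_X (y : LaurentSeries k) : evalInner y Polynomial.X = y := by
  simp [evalInner]

theorem map_evalInner (φ : LaurentSeries k →ₐ[k] LaurentSeries k) (y : LaurentSeries k)
    (P : Polynomial k) : φ (evalInner y P) = evalInner (φ y) P := by
  simp only [evalInner, RingHom.coe_coe]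
  exact (Polynomial.aeval_algHom_apply φ y P).symm

/-- **Prime-level input** for the induction step: the modular equation of level `p` after the
substitution `q ↦ q^p`, completely split over `k((q))`, and `J(q^p) ∉ k(J)`. -/
structure PrimeLevel (k : Type*) [Field k] (p : ℕ) [NeZero p] [NeZero (p * p)] where
  /-- The modular polynomial, outer variable `X`, inner variable `Y`. -/
  Φ : Polynomial (Polynomial k)
  monic : Φ.Monic
  natDegree_eq : Φ.natDegree = p + 1
  /-- The twists `ζ` occurring in the factorisation. -/
  zetas : Multiset kˣ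
  one_mem : (1 : kˣ) ∈ zetas
  factor : Φ.map (evalInner (qExpand k p (jqModC k))) =
    (Polynomial.X - Polynomial.C (qExpand k (p * p) (jqModC k))) *
      (zetas.map fun ζ => (Polynomial.X - Polynomial.C (rescaleU ζ (jqModC k)) :
        Polynomial (LaurentSeries k))).prod
  not_mem : qExpand k p (jqModC k) ∉ IntermediateField.adjoin k {jqModC k}

section LinearIndependence

variable (p : ℕ) [NeZero p]

/-- Over a subfield of `k((q^p))`, the first `p` powers of a series of order `-1` are linearly
independent. -/
theorem linearIndependent_pow_of_le_range (A : IntermediateField k (LaurentSeries k))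
    (hA : ∀ a ∈ A, a ∈ Set.range (qExpand k p)) {x : LaurentSeries k} (hx : x.order = -1) :
    LinearIndependent A fun i : Fin p => x ^ (i : ℕ) := by
  classical
  have hx0 : x ≠ 0 := by
    rintro rfl
    simp at hx
  rw [Fintype.linearIndependent_iff]
  intro g hg
  by_contra hne
  push Not at hne
  set s : Finset (Fin p) := Finset.univ.filter fun i => g i ≠ 0 with hs
  have hsne : s.Nonempty := by
    obtain ⟨i, hi⟩ := hne
    exact ⟨i, by simp [hs, hi]⟩
  set f : Fin p → LaurentSeries k := fun i => (g i : LaurentSeries k) * x ^ (i : ℕ) with hf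
  have hsum : ∑ i ∈ s, f i = 0 := by
    rw [← hg, hs, Finset.sum_filter]
    refine Finset.sum_congr rfl fun i _ => ?_
    by_cases hi : g i = 0
    · simp [hi]
    · rw [if_pos hi]
      rfl
  have hfne : ∀ i ∈ s, f i ≠ 0 := by
    intro i hi
    have hgi : g i ≠ 0 := by simpa [hs] using hi
    exact mul_ne_zero (by simpa using hgi) (pow_ne_zero _ hx0)
  have hord : ∀ i ∈ s, (f i).order = ((g i : LaurentSeries k)).order - (i : ℤ) := by
    intro i hi
    have hgi : g i ≠ 0 := by simpa [hs] using hi
    have hgi' : (g i : LaurentSeries k) ≠ 0 := by simpa using hgi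
    rw [hf, order_mul hgi' (pow_ne_zero _ hx0), order_pow, hx]
    simp
    ring
  refine sum_ne_zero_of_injOn_order s f hsne hfne ?_ hsum
  intro i hi j hj hij
  simp only at hij
  rw [hord i hi, hord j hj] at hij
  obtain ⟨a, ha⟩ := dvd_order_of_mem_range_qExpand p (hA _ (g i).2)
  obtain ⟨b, hb⟩ := dvd_order_of_mem_range_qExpand p (hA _ (g j).2)
  rw [ha, hb] at hij
  have hi' : ((i : ℕ) : ℤ) < p := by exact_mod_cast i.2
  have hj' : ((j : ℕ) : ℤ) < p := by exact_mod_cast j.2
  have hi0 : (0 : ℤ) ≤ ((i : ℕ) : ℤ) := by positivity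
  have hj0 : (0 : ℤ) ≤ ((j : ℕ) : ℤ) := by positivity
  have hp : (0 : ℤ) < p := by exact_mod_cast Nat.pos_of_ne_zero (NeZero.ne p)
  have hdvd : (p : ℤ) ∣ ((i : ℕ) : ℤ) - ((j : ℕ) : ℤ) := ⟨a - b, by linarith⟩
  have : ((i : ℕ) : ℤ) = ((j : ℕ) : ℤ) := by
    have h1 := Int.eq_zero_of_abs_lt_dvd hdvd (by rw [abs_lt]; constructor <;> linarith)
    linarith
  exact Fin.ext (by exact_mod_cast this)

end LinearIndependence

end Fermat.Agent.S28.StepDeg
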