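/-
Project F (S28, Igusa), slice (III-STEP), part 3 (helper29): the minimal polynomial of `J` over
a subfield `A` of `k((q^p))` containing `J(q^p)` but not `J(q^(p^2))` is the modular equation.
-/
import Fermat.Agent.S28.Step.Indep

set_option autoImplicit false

noncomputable section

namespace Fermat.Agent.S28.StepDeg

open HahnSeries ModularCurve Fermat.Agent.S28.LaurentRescale Polynomial

variable {k : Type*} [Field k]

/-- If the first `n` powers of an integral element are linearly independent, its minimal
polynomial has degree at least `n`. -/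
theorem le_natDegree_minpoly_of_linearIndependent {K S : Type*} [Field K] [Ring S] [Algebra K S]
    {x : S} (hx : IsIntegral K x) {n : ℕ}
    (hli : LinearIndependent K fun i : Fin n => x ^ (i : ℕ)) : n ≤ (minpoly K x).natDegree := by
  by_contra hlt
  rw [not_le] at hlt
  rw [Fintype.linearIndependent_iff] at hli
  have h0 : ∑ i : Fin n, (minpoly K x).coeff i • x ^ (i : ℕ) = 0 := by
    have := Polynomial.aeval_eq_sum_range' hlt x
    rw [minpoly.aeval] at this
    rw [Finset.sum_fin_eq_sum_range]
    rw [this]
    refine Finset.sum_congr rfl fun i hi => ?_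
    rw [dif_pos (Finset.mem_range.mp hi)]
  have h1 := hli (fun i => (minpoly K x).coeff i) h0 ⟨(minpoly K x).natDegree, hlt⟩
  have h2 : (minpoly K x).coeff (minpoly K x).natDegree = 1 := (minpoly.monic hx).coeff_natDegree
  simp only at h1
  rw [h2] at h1
  exact one_ne_zero h1

section PolyOver

variable {p : ℕ} [NeZero p] [NeZero (p * p)] (PL : PrimeLevel k p)
variable (A : IntermediateField k (LaurentSeries k)) (hJp : qExpand k p (jqModC k) ∈ A)

/-- The modular equation `Φ_p(X, J(q^p))` as a polynomial over a field `A ∋ J(q^p)`. -/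
def PrimeLevel.polyOver : Polynomial A :=
  PL.Φ.map ((Polynomial.aeval (⟨qExpand k p (jqModC k), hJp⟩ : A) : Polynomial k →ₐ[k] A) :
    Polynomial k →+* A)

theorem PrimeLevel.polyOver_map :
    (PL.polyOver A hJp).map (algebraMap A (LaurentSeries k)) =
      PL.Φ.map (evalInner (qExpand k p (jqModC k))) := by
  rw [PrimeLevel.polyOver, Polynomial.map_map]
  congr 1
  refine Polynomial.ringHom_ext ?_ ?_
  · intro c
    simp [evalInner]
  · simp [evalInner]

theorem PrimeLevel.polyOver_monic : (PL.polyOver A hJp).Monic := PL.monic.map _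

theorem PrimeLevel.polyOver_natDegree : (PL.polyOver A hJp).natDegree = p + 1 := by
  rw [PrimeLevel.polyOver, PL.monic.natDegree_map, PL.natDegree_eq]

/-- The roots in `k((q))` of the modular equation `Φ_p(X, J(q^p))`. -/
theorem PrimeLevel.eq_of_eval_eq_zero {a : LaurentSeries k}
    (ha : (PL.Φ.map (evalInner (qExpand k p (jqModC k)))).eval a = 0) :
    a = qExpand k (p * p) (jqModC k) ∨ ∃ ζ ∈ PL.zetas, a = rescaleU ζ (jqModC k) := by
  rw [PL.factor, eval_mul, eval_sub, eval_X, eval_C, mul_eq_zero] at ha
  rcases ha with ha | ha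
  · exact Or.inl (sub_eq_zero.mp ha)
  · right
    rw [eval_multiset_prod, Multiset.prod_eq_zero_iff, Multiset.map_map] at ha
    obtain ⟨ζ, hζ, h0⟩ := Multiset.mem_map.mp ha
    simp only [Function.comp_apply, eval_sub, eval_X, eval_C] at h0
    exact ⟨ζ, hζ, sub_eq_zero.mp h0⟩

theorem PrimeLevel.eval_jqModC :
    (PL.Φ.map (evalInner (qExpand k p (jqModC k)))).eval (jqModC k) = 0 := by
  rw [PL.factor, eval_mul, eval_multiset_prod, Multiset.map_map]
  refine mul_eq_zero_of_right _ (Multiset.prod_eq_zero ?_)
  refine Multiset.mem_map.mpr ⟨1, PL.one_mem, ?_⟩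
  simp

theorem PrimeLevel.aeval_polyOver : Polynomial.aeval (jqModC k) (PL.polyOver A hJp) = 0 := by
  rw [Polynomial.aeval_def, Polynomial.eval₂_eq_eval_map, PL.polyOver_map A hJp]
  exact PL.eval_jqModC

include PL hJp in
theorem PrimeLevel.isIntegral_jqModC : IsIntegral A (jqModC k) :=
  ⟨PL.polyOver A hJp, PL.polyOver_monic A hJp, by
    have := PL.aeval_polyOver A hJp
    rwa [Polynomial.aeval_def] at this⟩

/-- **Degree lemma.**  If `A ⊆ k((q^p))` contains `J(q^p)` but not `J(q^(p^2))`, the minimal
polynomial of `J` over `A` is the full modular equation (of degree `p + 1`). -/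
theorem PrimeLevel.minpoly_eq (hp : 2 ≤ p) (hA : ∀ a ∈ A, a ∈ Set.range (qExpand k p))
    (hnot : qExpand k (p * p) (jqModC k) ∉ A) :
    minpoly A (jqModC k) = PL.polyOver A hJp := by
  have hint := PL.isIntegral_jqModC A hJp
  have hdvd : minpoly A (jqModC k) ∣ PL.polyOver A hJp := minpoly.dvd A _ (PL.aeval_polyOver A hJp)
  have hmon := minpoly.monic hint
  have hge : p ≤ (minpoly A (jqModC k)).natDegree :=
    le_natDegree_minpoly_of_linearIndependent hint
      (linearIndependent_pow_of_le_range p A hA order_jqModC)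
  have hle : (minpoly A (jqModC k)).natDegree ≤ p + 1 := by
    rw [← PL.polyOver_natDegree A hJp]
    exact Polynomial.natDegree_le_of_dvd hdvd (PL.polyOver_monic A hJp).ne_zero
  refine (Polynomial.eq_of_monic_of_dvd_of_natDegree_le hmon (PL.polyOver_monic A hJp) hdvd ?_).symm
  rw [PL.polyOver_natDegree A hJp]
  by_contra hlt
  have hdeg : (minpoly A (jqModC k)).natDegree = p := by omega
  obtain ⟨c, hc⟩ := hdvd
  have hcmon : c.Monic := by
    have := PL.polyOver_monic A hJp
    rw [hc] at this
    exact hmon.of_mul_monic_left this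
  have hcdeg : c.natDegree = 1 := by
    have h1 := congrArg Polynomial.natDegree hc
    rw [PL.polyOver_natDegree A hJp, hmon.natDegree_mul hcmon, hdeg] at h1
    omega
  obtain ⟨a, ha⟩ := Polynomial.exists_root_of_degree_eq_one
    (by rw [Polynomial.degree_eq_natDegree hcmon.ne_zero, hcdeg]; rfl : c.degree = 1)
  have hroot : (PL.polyOver A hJp).eval a = 0 := by
    rw [hc, eval_mul, ha.eq_zero, mul_zero]
  have hroot' : (PL.Φ.map (evalInner (qExpand k p (jqModC k)))).eval (a : LaurentSeries k) = 0 := by
    rw [← PL.polyOver_map A hJp, Polynomial.eval_map, ← Polynomial.aeval_def]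
    have := congrArg (algebraMap A (LaurentSeries k)) hroot
    rw [map_zero, ← Polynomial.aeval_algebraMap_apply_eq_algebraMap_eval] at this
    exact this
  rcases PL.eq_of_eval_eq_zero hroot' with h | ⟨ζ, -, h⟩
  · exact hnot (h ▸ a.2)
  · have h1 := dvd_order_of_mem_range_qExpand p (hA _ a.2)
    rw [h, order_rescaleU_jqModC] at h1
    have h2 : (p : ℤ) ∣ 1 := (dvd_neg).mp h1
    have h3 : (p : ℤ) ≤ 1 := Int.le_of_dvd one_pos h2
    omega

end PolyOver

end Fermat.Agent.S28.StepDeg
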