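/-
Project F (S28, Igusa), slice (III-STEP), part 4 (helper29): relative ranks of intermediate
fields of `k((q))` and the induction step `N → N p` (modulo `J(q^p) ∉ E_N` when `p ∤ N`).
-/
import Fermat.Agent.S28.Step.Degree

set_option autoImplicit false

noncomputable section

namespace Fermat.Agent.S28.StepDeg

open HahnSeries ModularCurve Fermat.Agent.S28.LaurentRescale Polynomial IntermediateField

section General

variable {F E : Type*} [Field F] [Field E] [Algebra F E]

/-- `n` elements of `B`, linearly independent over `A ≤ B`, bound the relative rank below. -/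
theorem le_relrank_of_linearIndependent {A B : IntermediateField F E} (h : A ≤ B) {n : ℕ}
    (v : Fin n → E) (hv : ∀ i, v i ∈ B) (hli : LinearIndependent A v) :
    (n : Cardinal) ≤ IntermediateField.relrank A B := by
  rw [IntermediateField.relrank_eq_rank_of_le h, Module.le_rank_iff]
  refine ⟨fun i => ⟨v i, hv i⟩, ?_⟩
  refine LinearIndependent.of_comp (extendScalars h).val.toLinearMap ?_
  exact hli

/-- The relative rank of a simple extension is the degree of the minimal polynomial. -/
theorem relrank_sup_adjoin_simple (A : IntermediateField F E) {x : E} (hx : IsIntegral A x) :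
    IntermediateField.relrank A (A ⊔ F⟮x⟯) = ((minpoly A x).natDegree : Cardinal) := by
  have h : A ≤ A ⊔ F⟮x⟯ := le_sup_left
  rw [IntermediateField.relrank_eq_rank_of_le h]
  have he : extendScalars h = IntermediateField.adjoin A {x} := by
    apply IntermediateField.restrictScalars_injective F
    rw [extendScalars_restrictScalars, restrictScalars_adjoin_eq_sup]
  rw [he]
  have := IntermediateField.adjoin.finiteDimensional hx
  rw [← Module.finrank_eq_rank, IntermediateField.adjoin.finrank hx]

end General

variable {k : Type*} [Field k]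

/-- The field `k(J)`. -/
def kJ (k : Type*) [Field k] : IntermediateField k (LaurentSeries k) :=
  IntermediateField.adjoin k {jqModC k}

/-- The field `k(J(q^m))`. -/
def kJm (k : Type*) [Field k] (m : ℕ) [NeZero m] : IntermediateField k (LaurentSeries k) :=
  IntermediateField.adjoin k {qExpand k m (jqModC k)}

theorem jqModC_mem_kJ : jqModC k ∈ kJ k := IntermediateField.mem_adjoin_simple_self k _

theorem qExpand_jqModC_mem_kJm (m : ℕ) [NeZero m] : qExpand k m (jqModC k) ∈ kJm k m :=
  IntermediateField.mem_adjoin_simple_self k _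

theorem kJ_map (m : ℕ) [NeZero m] : (kJ k).map (qExpandAlgHomC k m) = kJm k m := by
  rw [kJ, IntermediateField.adjoin_map, Set.image_singleton]
  rfl

theorem modularFunctionFieldFullC_one : modularFunctionFieldFullC k 1 = kJ k := by
  rw [modularFunctionFieldFullC, kJ]
  congr 1
  ext x
  constructor
  · rintro ⟨d, hd, hdvd, rfl⟩
    have : d = 1 := Nat.dvd_one.mp hdvd
    subst this
    rw [qExpand_one_apply]
    rfl
  · rintro rfl
    exact ⟨1, inferInstance, dvd_rfl, (qExpand_one_apply _).symm⟩

theorem kJ_le_full (N : ℕ) : kJ k ≤ modularFunctionFieldFullC k N := by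
  rw [kJ, IntermediateField.adjoin_le_iff]
  rintro x rfl
  exact jqModC_mem_full k N

theorem mem_range_of_mem_map (m : ℕ) [NeZero m] (B : IntermediateField k (LaurentSeries k))
    {a : LaurentSeries k} (ha : a ∈ B.map (qExpandAlgHomC k m)) : a ∈ Set.range (qExpand k m) := by
  obtain ⟨y, -, rfl⟩ := (IntermediateField.mem_map _).mp ha
  exact ⟨y, rfl⟩

theorem mem_map_qExpand_iff (m : ℕ) [NeZero m] (B : IntermediateField k (LaurentSeries k))
    (y : LaurentSeries k) : qExpand k m y ∈ B.map (qExpandAlgHomC k m) ↔ y ∈ B := by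
  constructor
  · intro h
    obtain ⟨z, hz, hzy⟩ := (IntermediateField.mem_map _).mp h
    have : z = y := qExpand_injective m hzy
    exact this ▸ hz
  · intro h
    exact (IntermediateField.mem_map _).mpr ⟨y, h, rfl⟩

section StepLemma

variable {p : ℕ} [NeZero p] [NeZero (p * p)] (PL : PrimeLevel k p)

include PL in
theorem PrimeLevel.qExpand_sq_not_mem_kJm : qExpand k (p * p) (jqModC k) ∉ kJm k p := by
  intro h
  rw [← kJ_map, ← qExpand_qExpand p p, mem_map_qExpand_iff] at h
  exact PL.not_mem h

omit [NeZero (p * p)] in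
theorem mem_range_of_mem_kJm {a : LaurentSeries k} (ha : a ∈ kJm k p) :
    a ∈ Set.range (qExpand k p) := by
  rw [← kJ_map] at ha
  exact mem_range_of_mem_map p _ ha

include PL in
/-- `[k(J, J_p) : k(J_p)] = p + 1`. -/
theorem PrimeLevel.relrank_kJm_sup (hp : 2 ≤ p) :
    IntermediateField.relrank (kJm k p) (kJm k p ⊔ kJ k) = ((p + 1 : ℕ) : Cardinal) := by
  rw [kJ, relrank_sup_adjoin_simple _ (PL.isIntegral_jqModC (kJm k p) (qExpand_jqModC_mem_kJm p)),
    PL.minpoly_eq (kJm k p) (qExpand_jqModC_mem_kJm p) hp (fun a ha => mem_range_of_mem_kJm ha)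
      PL.qExpand_sq_not_mem_kJm, PL.polyOver_natDegree]

include PL in
/-- `[k(J, J_p) : k(J)] = p + 1` (transport of the previous statement by `q ↦ q^p`). -/
theorem PrimeLevel.relrank_kJ_sup (hp : 2 ≤ p) :
    IntermediateField.relrank (kJ k) (kJ k ⊔ kJm k p) = ((p + 1 : ℕ) : Cardinal) := by
  have hmem := qExpand_jqModC_mem_kJm (k := k) p
  have hA : ∀ a ∈ kJm k p, a ∈ Set.range (qExpand k p) := fun a ha => mem_range_of_mem_kJm ha
  have hmin := PL.minpoly_eq (kJm k p) hmem hp hA PL.qExpand_sq_not_mem_kJm
  have hint := PL.isIntegral_jqModC (kJm k p) hmem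
  -- `J(q^(p^2))` is a root of the (irreducible) modular equation over `k(J_p)`
  have hroot : Polynomial.aeval (qExpand k (p * p) (jqModC k)) (PL.polyOver (kJm k p) hmem) = 0 := by
    rw [Polynomial.aeval_def, Polynomial.eval₂_eq_eval_map, PL.polyOver_map, PL.factor, eval_mul,
      eval_sub, eval_X, eval_C, sub_self, zero_mul]
  have hirr : Irreducible (PL.polyOver (kJm k p) hmem) := hmin ▸ minpoly.irreducible hint
  have hmin2 : minpoly (kJm k p) (qExpand k (p * p) (jqModC k)) = PL.polyOver (kJm k p) hmem :=
    (minpoly.eq_of_irreducible_of_monic hirr hroot (PL.polyOver_monic _ _)).symm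
  have hint2 : IsIntegral (kJm k p) (qExpand k (p * p) (jqModC k)) :=
    ⟨PL.polyOver (kJm k p) hmem, PL.polyOver_monic _ _, by rwa [Polynomial.aeval_def] at hroot⟩
  rw [← IntermediateField.relrank_map_map _ _ (qExpandAlgHomC k p), IntermediateField.map_sup,
    kJ_map]
  have h2 : (kJm k p).map (qExpandAlgHomC k p) =
      IntermediateField.adjoin k {qExpand k (p * p) (jqModC k)} := by
    rw [kJm, IntermediateField.adjoin_map, Set.image_singleton, qExpandAlgHomC_apply,
      qExpand_qExpand]
  rw [h2, relrank_sup_adjoin_simple _ hint2, hmin2, PL.polyOver_natDegree]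

include PL in
/-- **The induction step**, with the degree `[E_{Np} : V_p E_N] ≥ c` as input. -/
theorem PrimeLevel.relrank_step (hp : 2 ≤ p) (N : ℕ) [NeZero N] [NeZero (N * p)] (c : Cardinal)
    (hc : c ≤ IntermediateField.relrank ((modularFunctionFieldFullC k N).map (qExpandAlgHomC k p))
      (modularFunctionFieldFullC k (N * p))) :
    IntermediateField.relrank (kJ k) (modularFunctionFieldFullC k N) * c ≤
      IntermediateField.relrank (kJ k) (modularFunctionFieldFullC k (N * p)) := by
  set E := modularFunctionFieldFullC k (N * p) with hE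
  set EN := modularFunctionFieldFullC k N with hEN
  have hJ_E : kJ k ≤ E := kJ_le_full (N * p)
  have hmapE : EN.map (qExpandAlgHomC k p) ≤ E := full_degeneracyC_map_le k N p
  have hJp_map : kJm k p ≤ EN.map (qExpandAlgHomC k p) := by
    rw [← kJ_map]
    exact IntermediateField.map_mono _ (kJ_le_full N)
  have hJp_E : kJm k p ≤ E := hJp_map.trans hmapE
  have hM_E : kJ k ⊔ kJm k p ≤ E := sup_le hJ_E hJp_E
  have hM_E' : kJm k p ⊔ kJ k ≤ E := sup_le hJp_E hJ_E
  -- (iii): the two towers through `M = k(J, J_p)`
  have r1 := IntermediateField.relrank_mul_relrank (le_sup_left : kJ k ≤ kJ k ⊔ kJm k p) hM_E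
  have r2 := IntermediateField.relrank_mul_relrank (le_sup_left : kJm k p ≤ kJm k p ⊔ kJ k) hM_E'
  rw [PL.relrank_kJ_sup hp] at r1
  rw [PL.relrank_kJm_sup hp, sup_comm] at r2
  have r12 : IntermediateField.relrank (kJ k) E = IntermediateField.relrank (kJm k p) E := by
    rw [← r1, ← r2]
  -- the tower through `V_p E_N`
  have r5 := IntermediateField.relrank_mul_relrank hJp_map hmapE
  have r6 : IntermediateField.relrank (kJm k p) (EN.map (qExpandAlgHomC k p)) =
      IntermediateField.relrank (kJ k) EN := by
    rw [← kJ_map, IntermediateField.relrank_map_map]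
  rw [r12, ← r5, r6]
  exact mul_le_mul' le_rfl hc

omit [NeZero (p * p)] in
/-- (i) `[E_{Np} : V_p E_N] ≥ p`, by orders only. -/
theorem le_relrank_map_full (N : ℕ) [NeZero N] [NeZero (N * p)] :
    ((p : ℕ) : Cardinal) ≤
      IntermediateField.relrank ((modularFunctionFieldFullC k N).map (qExpandAlgHomC k p))
        (modularFunctionFieldFullC k (N * p)) := by
  refine le_relrank_of_linearIndependent (full_degeneracyC_map_le k N p)
    (fun i : Fin p => jqModC k ^ (i : ℕ)) (fun i => pow_mem (jqModC_mem_full k (N * p)) _) ?_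
  exact linearIndependent_pow_of_le_range p _ (fun a ha => mem_range_of_mem_map p _ ha)
    order_jqModC

include PL in
/-- (ii) `[E_{Np} : V_p E_N] ≥ p + 1` as soon as `J(q^p) ∉ E_N`. -/
theorem PrimeLevel.succ_le_relrank_map_full (hp : 2 ≤ p) (N : ℕ) [NeZero N] [NeZero (N * p)]
    (hnot : qExpand k p (jqModC k) ∉ modularFunctionFieldFullC k N) :
    ((p + 1 : ℕ) : Cardinal) ≤
      IntermediateField.relrank ((modularFunctionFieldFullC k N).map (qExpandAlgHomC k p))
        (modularFunctionFieldFullC k (N * p)) := by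
  set A := (modularFunctionFieldFullC k N).map (qExpandAlgHomC k p) with hAdef
  have hJp : qExpand k p (jqModC k) ∈ A :=
    (IntermediateField.mem_map _).mpr ⟨jqModC k, jqModC_mem_full k N, rfl⟩
  have hA : ∀ a ∈ A, a ∈ Set.range (qExpand k p) := fun a ha => mem_range_of_mem_map p _ ha
  have hnot' : qExpand k (p * p) (jqModC k) ∉ A := by
    rw [← qExpand_qExpand p p, hAdef, mem_map_qExpand_iff]
    exact hnot
  have hmin := PL.minpoly_eq A hJp hp hA hnot'
  have hdeg : (minpoly A (jqModC k)).natDegree = p + 1 := by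
    rw [hmin, PL.polyOver_natDegree]
  have hli := linearIndependent_pow (K := A) (jqModC k)
  rw [← hdeg]
  exact le_relrank_of_linearIndependent (full_degeneracyC_map_le k N p) _
    (fun i => pow_mem (jqModC_mem_full k (N * p)) _) hli

end StepLemma

end Fermat.Agent.S28.StepDeg
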