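/-
Project F (S28, Igusa), slice (III-STEP), part 5 (helper29): the substitutions `q ↦ ξ q^e`
applied to `J`, and the roots of the substituted prime-level modular equations.
-/
import Fermat.Agent.S28.Step.Tower

set_option autoImplicit false

noncomputable section

namespace Fermat.Agent.S28.StepDeg

open HahnSeries ModularCurve Fermat.Agent.S28.LaurentRescale Polynomial IntermediateField

variable {k : Type*} [Field k]

/-! ### A total version of `q ↦ q^e` -/

/-- `q ↦ q^e` as a `k`-algebra endomorphism of `k((q))` (the identity for `e = 0`). -/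
def qE (k : Type*) [Field k] (e : ℕ) : LaurentSeries k →ₐ[k] LaurentSeries k :=
  if h : e = 0 then AlgHom.id k _ else @qExpandAlgHomC k _ e ⟨h⟩

theorem qE_apply (e : ℕ) [NeZero e] (f : LaurentSeries k) : qE k e f = qExpand k e f := by
  unfold qE
  rw [dif_neg (NeZero.ne e)]
  rfl

theorem qE_eq (e : ℕ) [NeZero e] : qE k e = qExpandAlgHomC k e :=
  AlgHom.ext fun f => qE_apply e f

theorem qE_one (f : LaurentSeries k) : qE k 1 f = f := by
  rw [qE_apply, qExpand_one_apply]

theorem qE_qE {m n : ℕ} (hm : m ≠ 0) (hn : n ≠ 0) (f : LaurentSeries k) :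
    qE k m (qE k n f) = qE k (m * n) f := by
  have : NeZero m := ⟨hm⟩
  have : NeZero n := ⟨hn⟩
  have : NeZero (m * n) := ⟨mul_ne_zero hm hn⟩
  rw [qE_apply, qE_apply, qE_apply, qExpand_qExpand]

theorem qE_injective (e : ℕ) : Function.Injective (qE k e) := (qE k e).toRingHom.injective

theorem order_qE {e : ℕ} (he : e ≠ 0) (f : LaurentSeries k) :
    (qE k e f).order = (e : ℤ) * f.order := by
  have : NeZero e := ⟨he⟩
  rw [qE_apply, order_qExpand]

theorem rescaleU_qE (u : kˣ) {e : ℕ} (he : e ≠ 0) (f : LaurentSeries k) :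
    rescaleU u (qE k e f) = qE k e (rescaleU (u ^ e) f) := by
  have : NeZero e := ⟨he⟩
  rw [qE_apply, qE_apply, rescaleU_qExpand]

theorem mem_range_qE_of_dvd {m e : ℕ} (hm : m ≠ 0) (he : e ≠ 0) (h : m ∣ e)
    (f : LaurentSeries k) : qE k e f ∈ Set.range (qE k m) := by
  obtain ⟨c, rfl⟩ := h
  have hc : c ≠ 0 := fun h0 => he (by rw [h0, mul_zero])
  exact ⟨qE k c f, qE_qE hm hc f⟩

/-! ### The series `J(ξ q^e)` -/

/-- The series `J(ξ q^e)`. -/
def Jt (ξ : kˣ) (e : ℕ) : LaurentSeries k := qE k e (rescaleU ξ (jqModC k))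

theorem Jt_one (e : ℕ) : Jt (1 : kˣ) e = qE k e (jqModC k) := by
  rw [Jt, rescaleU_one]

theorem qE_Jt {m e : ℕ} (hm : m ≠ 0) (he : e ≠ 0) (ξ : kˣ) : qE k m (Jt ξ e) = Jt ξ (m * e) :=
  qE_qE hm he _

theorem rescaleU_Jt (u ξ : kˣ) {e : ℕ} (he : e ≠ 0) : rescaleU u (Jt ξ e) = Jt (u ^ e * ξ) e := by
  rw [Jt, rescaleU_qE u he, ← rescaleU_mul, Jt]

theorem order_Jt (ξ : kˣ) {e : ℕ} (he : e ≠ 0) : (Jt ξ e).order = -(e : ℤ) := by
  rw [Jt, order_qE he, order_rescaleU_jqModC]
  ring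

/-! ### Bivariate evaluation -/

/-- `Φ(a, b)` for a bivariate polynomial `Φ ∈ k[Y][X]` and `a, b` in a ring `T` under `k`. -/
def ev2 {T : Type*} [CommRing T] (g : k →+* T) (Φ : Polynomial (Polynomial k)) (a b : T) : T :=
  (Φ.map (Polynomial.eval₂RingHom g b)).eval a

theorem map_ev2 {T T' : Type*} [CommRing T] [CommRing T'] (f : T →+* T') (g : k →+* T)
    (Φ : Polynomial (Polynomial k)) (a b : T) :
    f (ev2 g Φ a b) = ev2 (f.comp g) Φ (f a) (f b) := by
  unfold ev2
  rw [Polynomial.eval_map, Polynomial.eval_map, Polynomial.hom_eval₂]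
  congr 1
  refine Polynomial.ringHom_ext ?_ ?_
  · intro c
    simp
  · simp

theorem evalInner_eq (y : LaurentSeries k) :
    evalInner y = Polynomial.eval₂RingHom (algebraMap k (LaurentSeries k)) y := by
  refine Polynomial.ringHom_ext ?_ ?_
  · intro c
    simp
  · simp

theorem algHom_comp_algebraMap (f : LaurentSeries k →ₐ[k] LaurentSeries k) :
    (f : LaurentSeries k →+* LaurentSeries k).comp (algebraMap k (LaurentSeries k)) =
      algebraMap k (LaurentSeries k) :=
  RingHom.ext fun c => f.commutes c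

section PL

variable {r : ℕ} [NeZero r] [NeZero (r * r)] (PL : PrimeLevel k r)

theorem PrimeLevel.ev2_sq :
    ev2 (algebraMap k (LaurentSeries k)) PL.Φ (qExpand k (r * r) (jqModC k))
      (qExpand k r (jqModC k)) = 0 := by
  rw [ev2, ← evalInner_eq, PL.factor, eval_mul, eval_sub, eval_X, eval_C, sub_self, zero_mul]

/-- `Φ_r(J(q^r), J(q)) = 0`. -/
theorem PrimeLevel.ev2_self :
    ev2 (algebraMap k (LaurentSeries k)) PL.Φ (qExpand k r (jqModC k)) (jqModC k) = 0 := by
  apply qExpand_injective (R := k) r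
  have h := map_ev2 ((qExpandAlgHomC k r : LaurentSeries k →ₐ[k] LaurentSeries k) :
    LaurentSeries k →+* LaurentSeries k) (algebraMap k (LaurentSeries k)) PL.Φ
    (qExpand k r (jqModC k)) (jqModC k)
  rw [algHom_comp_algebraMap] at h
  simp only [RingHom.coe_coe, qExpandAlgHomC_apply] at h
  rw [h, qExpand_qExpand, map_zero]
  exact PL.ev2_sq

/-- `Φ_r(J(q^(d r)), J(q^d)) = 0`. -/
theorem PrimeLevel.ev2_qE {d : ℕ} (hd : d ≠ 0) :
    ev2 (algebraMap k (LaurentSeries k)) PL.Φ (qE k (d * r) (jqModC k)) (qE k d (jqModC k)) = 0 := by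
  have h := map_ev2 ((qE k d : LaurentSeries k →ₐ[k] LaurentSeries k) :
    LaurentSeries k →+* LaurentSeries k) (algebraMap k (LaurentSeries k)) PL.Φ
    (qExpand k r (jqModC k)) (jqModC k)
  rw [algHom_comp_algebraMap, PL.ev2_self, map_zero] at h
  simp only [RingHom.coe_coe] at h
  rw [← qE_apply r, qE_qE hd (NeZero.ne r)] at h
  exact h.symm

/-- **Roots of the substituted modular equation**: the roots, in any field `Ω ⊇ k((q))`, of
`Φ_r(X, J(η^r q^(e₁ r)))` are `J(η^(r²) q^(e₁ r²))` and the `J(η ζ q^(e₁))`. -/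
theorem PrimeLevel.roots_subst {Ω : Type*} [Field Ω] (inc : LaurentSeries k →+* Ω) (η : kˣ)
    {e₁ : ℕ} (he₁ : e₁ ≠ 0) {a : Ω}
    (ha : ev2 (inc.comp (algebraMap k (LaurentSeries k))) PL.Φ a (inc (Jt (η ^ r) (e₁ * r))) = 0) :
    a = inc (Jt (η ^ (r * r)) (e₁ * (r * r))) ∨ ∃ ζ ∈ PL.zetas, a = inc (Jt (η * ζ) e₁) := by
  have hr : r ≠ 0 := NeZero.ne r
  have hrr : r * r ≠ 0 := NeZero.ne (r * r)
  -- the substitution `ψ : q ↦ η q^(e₁)`
  set ψ : LaurentSeries k →ₐ[k] LaurentSeries k := (qE k e₁).comp (rescaleA η).toAlgHom with hψ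
  have hψ_apply : ∀ f, ψ f = qE k e₁ (rescaleU η f) := fun f => rfl
  have hψ1 : ψ (qExpand k r (jqModC k)) = Jt (η ^ r) (e₁ * r) := by
    rw [hψ_apply, rescaleU_qExpand, ← qE_apply r, qE_qE he₁ hr, Jt]
  have hψ2 : ψ (qExpand k (r * r) (jqModC k)) = Jt (η ^ (r * r)) (e₁ * (r * r)) := by
    rw [hψ_apply, rescaleU_qExpand, ← qE_apply (r * r), qE_qE he₁ hrr, Jt]
  have hψ3 : ∀ ζ : kˣ, ψ (rescaleU ζ (jqModC k)) = Jt (η * ζ) e₁ := by
    intro ζ
    rw [hψ_apply, ← rescaleU_mul, Jt]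
  -- transport the factorisation
  have hfac := congrArg (Polynomial.map (inc.comp (ψ : LaurentSeries k →+* LaurentSeries k)))
    PL.factor
  rw [Polynomial.map_map, Polynomial.map_mul, Polynomial.map_sub, Polynomial.map_X,
    Polynomial.map_C, Polynomial.map_multiset_prod, Multiset.map_map] at hfac
  have hcomp : (inc.comp (ψ : LaurentSeries k →+* LaurentSeries k)).comp
      (evalInner (qExpand k r (jqModC k))) =
      Polynomial.eval₂RingHom (inc.comp (algebraMap k (LaurentSeries k)))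
        (inc (Jt (η ^ r) (e₁ * r))) := by
    refine Polynomial.ringHom_ext ?_ ?_
    · intro c
      simp
    · simp [hψ1]
  rw [hcomp] at hfac
  rw [ev2, hfac, eval_mul, eval_sub, eval_X, eval_C, mul_eq_zero] at ha
  rcases ha with ha | ha
  · left
    rw [sub_eq_zero] at ha
    rw [ha]
    simp only [RingHom.comp_apply, RingHom.coe_coe, hψ2]
  · right
    rw [eval_multiset_prod, Multiset.prod_eq_zero_iff, Multiset.map_map] at ha
    obtain ⟨ζ, hζ, h0⟩ := Multiset.mem_map.mp ha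
    simp only [Function.comp_apply, Polynomial.map_sub, Polynomial.map_X, Polynomial.map_C,
      eval_sub, eval_X, eval_C, RingHom.comp_apply, RingHom.coe_coe, hψ3] at h0
    exact ⟨ζ, hζ, sub_eq_zero.mp h0⟩

end PL

end Fermat.Agent.S28.StepDeg
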