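/-
Project F (S28, Igusa), slice (III-STEP), part 6 (helper29): the input structure `PrimeLevel`
from the interface props `Defs.HasModPoly` and `Defs.PrimeNotMem`.
-/
import Fermat.Agent.S28.Step.Subst
import Fermat.Agent.S28.Defs

set_option autoImplicit false

noncomputable section

namespace Fermat.Agent.S28.StepDeg

open HahnSeries ModularCurve Fermat.Agent.S28.LaurentRescale Polynomial IntermediateField

variable {k : Type*} [Field k]

theorem exists_isPrimitiveRoot_units [IsAlgClosed k] {p : ℕ} [NeZero p] (hpk : (p : k) ≠ 0) :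
    ∃ ζ : kˣ, IsPrimitiveRoot ζ p := by
  have : NeZero (p : k) := ⟨hpk⟩
  obtain ⟨ζ, hζ⟩ := HasEnoughRootsOfUnity.exists_primitiveRoot k p
  have hζ0 : ζ ≠ 0 := hζ.ne_zero (NeZero.ne p)
  exact ⟨Units.mk0 ζ hζ0, IsPrimitiveRoot.coe_units_iff.mp (by simpa using hζ)⟩

theorem PrimeLevel.nonempty_ofDefs [IsAlgClosed k] {p : ℕ} [NeZero p] [NeZero (p * p)]
    (hpk : (p : k) ≠ 0) (hF : Defs.HasModPoly k p) (hP : Defs.PrimeNotMem k p) :
    Nonempty (PrimeLevel k p) := by
  obtain ⟨Φ, hmon, hdeg, hfac⟩ := hF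
  obtain ⟨ζ, hζ⟩ := exists_isPrimitiveRoot_units (k := k) (p := p) hpk
  refine ⟨{ Φ := Φ
            monic := hmon
            natDegree_eq := hdeg
            zetas := (Multiset.range p).map fun b => ζ ^ b
            one_mem := ?_
            factor := ?_
            not_mem := hP }⟩
  · refine Multiset.mem_map.mpr ⟨0, ?_, pow_zero _⟩
    exact Multiset.mem_range.mpr (Nat.pos_of_ne_zero (NeZero.ne p))
  · have h := hfac ζ hζ
    have hsq : qExpand k (p ^ 2) (jqModC k) = qExpand k (p * p) (jqModC k) :=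
      qExpand_congr (sq p) _
    rw [hsq] at h
    rw [evalInner]
    rw [show ((Polynomial.aeval (qExpand k p (jqModC k)) : Polynomial k →ₐ[k] LaurentSeries k) :
      Polynomial k →+* LaurentSeries k) = (Polynomial.aeval (qExpand k p (jqModC k))).toRingHom
      from rfl, h, Multiset.map_map, Finset.prod_eq_multiset_prod]
    rfl

/-- The input structure of the step lemmas, from the interface props of PROJECT F. -/
def PrimeLevel.ofDefs [IsAlgClosed k] {p : ℕ} [NeZero p] [NeZero (p * p)] (hpk : (p : k) ≠ 0)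
    (hF : Defs.HasModPoly k p) (hP : Defs.PrimeNotMem k p) : PrimeLevel k p :=
  (PrimeLevel.nonempty_ofDefs hpk hF hP).some

end Fermat.Agent.S28.StepDeg
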