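/-
Project F (S28, Igusa), slice (III-STEP), final part (helper29): the induction `N → N p`,
producing `Defs.PsiLeRelrank k N`, i.e. `ψ(N) ≤ [k(J(q^d) : d ∣ N) : k(J)]`, over an
algebraically closed field `k` in which `N` is invertible.
-/
import Fermat.Agent.S28.Step.OfDefs
import Fermat.Agent.S28.PsiRec

set_option autoImplicit false

noncomputable section

namespace Fermat.Agent.S28.StepDeg

open HahnSeries ModularCurve Fermat.Agent.S28.LaurentRescale Polynomial IntermediateField

variable (k : Type*) [Field k] [IsAlgClosed k]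

/-- **(STEP), with (ii) as a hypothesis.** -/
theorem psiLeRelrank_of_notMem
    (hF : ∀ (p : ℕ) [Fact p.Prime], (p : k) ≠ 0 → Defs.HasModPoly k p)
    (hP : ∀ (p : ℕ) [Fact p.Prime], (p : k) ≠ 0 → Defs.PrimeNotMem k p)
    (hQ : ∀ (N p : ℕ) [NeZero N] [Fact p.Prime], ¬ p ∣ N → (N : k) ≠ 0 → (p : k) ≠ 0 →
      qExpand k p (jqModC k) ∉ modularFunctionFieldFullC k N)
    (N : ℕ) [hNZ : NeZero N] (hN : (N : k) ≠ 0) : Defs.PsiLeRelrank k N := by
  have key : ∀ M : ℕ, M ≠ 0 → ∀ h : M ≠ 0, (M : k) ≠ 0 → @Defs.PsiLeRelrank k _ M ⟨h⟩ := by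
    refine PsiRec.induction_mul_prime ?_ ?_
    · -- `N = 1`
      intro h _
      show (dedekindPsi 1 : Cardinal) ≤
        IntermediateField.relrank (IntermediateField.adjoin k {jqModC k})
          (modularFunctionFieldFullC k 1)
      rw [dedekindPsi_one, modularFunctionFieldFullC_one, kJ, IntermediateField.relrank_self]
      simp
    · -- `N → N p`
      intro M p hM0 hp ih h hMpk
      have hMk : (M : k) ≠ 0 := fun h0 => hMpk (by rw [Nat.cast_mul, h0, zero_mul])
      have hpk : (p : k) ≠ 0 := fun h0 => hMpk (by rw [Nat.cast_mul, h0, mul_zero])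
      have : NeZero M := ⟨hM0⟩
      have : Fact p.Prime := ⟨hp⟩
      have : NeZero (M * p) := ⟨h⟩
      have ihM : Defs.PsiLeRelrank k M := ih hM0 hMk
      let PL : PrimeLevel k p := PrimeLevel.ofDefs hpk (hF p hpk) (hP p hpk)
      have hp2 : 2 ≤ p := hp.two_le
      show (dedekindPsi (M * p) : Cardinal) ≤
        IntermediateField.relrank (IntermediateField.adjoin k {jqModC k})
          (modularFunctionFieldFullC k (M * p))
      rw [PsiRec.dedekindPsi_mul_prime hM0 hp, Nat.cast_mul]
      by_cases hdiv : p ∣ M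
      · rw [if_pos hdiv]
        exact le_trans (mul_le_mul' ihM le_rfl)
          (PL.relrank_step hp2 M (p : Cardinal) (le_relrank_map_full M))
      · rw [if_neg hdiv]
        exact le_trans (mul_le_mul' ihM le_rfl)
          (PL.relrank_step hp2 M ((p + 1 : ℕ) : Cardinal)
            (PL.succ_le_relrank_map_full hp2 M (hQ M p hdiv hMk hpk)))
  exact key N (NeZero.ne N) (NeZero.ne N) hN

end Fermat.Agent.S28.StepDeg
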