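/-
Project F (S28, Igusa), slice (III-STEP) = F-ST, final statement (helper29):
`ψ(N) ≤ [k(J(q^d) : d ∣ N) : k(J)]` over an algebraically closed field `k` with `N ∈ kˣ`,
from the prime-level modular equations `Defs.HasModPoly` and the prime case `Defs.PrimeNotMem`.
Assembles `StepDeg.psiLeRelrank_of_notMem` (degrees + induction, helper29) with
`StepCoprimeLaurent.qExpand_not_mem_full` ((STEP)(ii), helper16).
-/
import Fermat.Agent.S28.Step.Main
import Fermat.Agent.S28.StepCoprimeLaurent

set_option autoImplicit false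

namespace Fermat.Agent.S28.Step

open ModularCurve

/-- **(STEP)**: Igusa's degree bound over an algebraically closed field. -/
theorem psi_le_relrank (k : Type*) [Field k] [IsAlgClosed k] (N : ℕ) [NeZero N]
    (hN : (N : k) ≠ 0)
    (hF : ∀ (p : ℕ) [Fact p.Prime], (p : k) ≠ 0 → Defs.HasModPoly k p)
    (hP : ∀ (p : ℕ) [Fact p.Prime], (p : k) ≠ 0 → Defs.PrimeNotMem k p) :
    Defs.PsiLeRelrank k N :=
  StepDeg.psiLeRelrank_of_notMem k hF hP
    (fun M p _ _ hpM hMk hpk =>
      StepCoprimeLaurent.qExpand_not_mem_full k M p Fact.out hpM hMk hpk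
        (fun r _ hr hrk => by
          have : Fact r.Prime := ⟨hr⟩
          exact hF r hrk)
        (hP p hpk))
    N hN

end Fermat.Agent.S28.Step
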